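/-
Programme G1 (S48 = Deligne–Serre), chapter B5 (P3, the residual representation) -- helper40.

**ENTRY CONTRACT OF B5 (`ESModule`) AND THE ASSEMBLY: an Eichler–Shimura module gives the residual
representation of `Contracts36.ResidualAttach`.**

`ESModule N ℓ a e` packages what the chapters B1 (Hecke algebra), B3 (Kummer system at the single
level `ℓ`, period bridge), B4 (Eichler–Shimura congruence, unramifiedness) and B6 (the eigen-system of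
`f·E` modulo `λ`) have to deliver at one prime `ℓ`:

* `T` a commutative ring (the Hecke algebra generated by the `T_p`, `⟨d⟩`), `Λ` a finitely generated
  FAITHFUL `T`-module (the parabolic lattice `H₁(X₁(Nℓ), ℤ)`);
* `M` a `T`-module (`= J₁(Nℓ)(ℚ̄)[ℓ]`) with a `T`-linear iso `M ≃ Λ ⧸ ℓ Λ` (Kummer system at level `ℓ`)
  and a `T`-linear representation `r` of `G_ℚ` of finite level, unramified outside `Nℓ`;
* `θ : T →+* ZMod ℓ` (the eigen-system modulo `λ`), elements `tp p`, `dp p` of `T`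
  (`T_p` and `p⟨p⟩`) with `θ (tp p) = a p`, `θ (dp p) = e p`, and the Eichler–Shimura relation
  `Frob² - T_p Frob + p⟨p⟩ = 0` on `M` at every Frobenius element at every `p ∤ Nℓ`.

`exists_residual` : from the Boston–Lenstra–Ribet extraction (`BLRStmt ℓ`, helper19's
`DS/G1/BLR19.exists_rep` at `G = G_ℚ`, `F = ZMod ℓ`) and an `ESModule` one gets
`ρ̄ : G_ℚ →* GL₂(ZMod ℓ)` of finite level, semisimple, unramified outside `Nℓ`, with
`tr ρ̄(Frob_p) = a p`, `det ρ̄(Frob_p) = e p`.  No Tate module, no Brauer–Nesbitt: the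
representation lives on a simple constituent of the eigen-quotient `ZMod ℓ ⊗[T] M`, which is nonzero
by Nakayama (`EigenQuot40`), satisfies the quadratic relation at every element of `G_ℚ` by the
generator form of Chebotarev (`FrobToAll40`), and `δ = e ∘ χ_N` (`DetChar40`).

`residualAttachOutside_of_esModules` : the same for a `Contracts36.CoeffData`, all `ℓ` outside a finite
set `S`, in the literal shape of `Contracts36.ResidualAttach` (which is the case `S = ∅`).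
-/
import Mathlib
import Fermat.Agent.DS.Spec.Contracts36
import Fermat.Agent.DS.G1.FrobToAll40
import Fermat.Agent.DS.G1.EigenQuot40
import Fermat.Agent.DS.G1.DetChar40

set_option autoImplicit false
set_option linter.style.haveILetI false

open CongruenceSubgroup
open scoped MatrixGroups NumberField TensorProduct

noncomputable section

namespace Fermat.Agent.DS.G1.Res.ESModule40

open Fermat.Agent.DS.Spec.Contracts36

local notation "Qb" => AlgebraicClosure ℚ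
local notation "Γℚ" => (AlgebraicClosure ℚ ≃ₐ[ℚ] AlgebraicClosure ℚ)

/-! ### the Boston–Lenstra–Ribet extraction, as a statement -/

/-- the literal of the Boston–Lenstra–Ribet extraction at `G = G_ℚ`, `F = ZMod ℓ`. -/
def BLRStmt (ℓ : ℕ) [Fact ℓ.Prime] : Prop :=
  ∀ (V : Type) [AddCommGroup V] [Module (ZMod ℓ) V] [Module.Finite (ZMod ℓ) V] [Nontrivial V]
    (r : Representation (ZMod ℓ) Γℚ V) (δ : Γℚ →* (ZMod ℓ)ˣ),
    (∀ g : Γℚ, ∃ a : ZMod ℓ, ∀ v : V,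
      r g (r g v) - a • r g v + ((δ g : (ZMod ℓ)ˣ) : ZMod ℓ) • v = 0) →
    ∃ ρ : Γℚ →* GL (Fin 2) (ZMod ℓ), SemisimpleImage ρ ∧
      (∀ (g : Γℚ) (a : ZMod ℓ),
        (∀ v : V, r g (r g v) - a • r g v + ((δ g : (ZMod ℓ)ˣ) : ZMod ℓ) • v = 0) →
        ((ρ g : GL (Fin 2) (ZMod ℓ)) : Matrix (Fin 2) (Fin 2) (ZMod ℓ)).trace = a ∧
        ((ρ g : GL (Fin 2) (ZMod ℓ)) : Matrix (Fin 2) (Fin 2) (ZMod ℓ)).det =
          ((δ g : (ZMod ℓ)ˣ) : ZMod ℓ)) ∧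
      ∀ g : Γℚ, r g = 1 → δ g = 1 → ρ g = 1

/-! ### the entry contract of B5 -/

/-- **An Eichler–Shimura module at `ℓ`** for the eigen-system `(a p, e p)` modulo `λ`. -/
structure ESModule (N : ℕ) [NeZero N] (ℓ : ℕ) [Fact ℓ.Prime] (a : ℕ → ZMod ℓ)
    (e : (ZMod N)ˣ →* (ZMod ℓ)ˣ) : Type 1 where
  /-- the Hecke algebra -/
  T : Type
  [instT : CommRing T]
  /-- the lattice -/
  Λ : Type
  [instΛ : AddCommGroup Λ]
  [modΛ : Module T Λ]
  [finΛ : Module.Finite T Λ]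
  faithful : ∀ t : T, (∀ x : Λ, t • x = 0) → t = 0
  /-- the `ℓ`-torsion of the Jacobian -/
  M : Type
  [instM : AddCommGroup M]
  [modM : Module T M]
  [finM : Module.Finite T M]
  /-- the Kummer system at the single level `ℓ` -/
  kummer : M ≃ₗ[T] Λ ⧸ (Ideal.span {(ℓ : T)} • (⊤ : Submodule T Λ))
  /-- the Galois action, `T`-linear -/
  r : Representation T Γℚ M
  level : GaloisFactorsThroughFiniteLevel r
  unram : ∀ p : ℕ, p.Prime → ¬ p ∣ N * ℓ →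
    ∀ A : ValuationSubring Qb, A.LiesOverPrime p → ∀ σ ∈ A.inertiaSubgroupIn ℚ, r σ = 1
  /-- the eigen-system modulo `λ` -/
  θ : T →+* ZMod ℓ
  /-- the Hecke operators `T_p` -/
  tp : ℕ → T
  /-- the operators `p⟨p⟩` -/
  dp : ℕ → T
  θ_tp : ∀ p : ℕ, p.Prime → ¬ p ∣ N * ℓ → θ (tp p) = a p
  θ_dp : ∀ p : ℕ, p.Prime → ¬ p ∣ N * ℓ → ∀ u : (ZMod N)ˣ, (u : ZMod N) = (p : ZMod N) →
    θ (dp p) = ((e u : (ZMod ℓ)ˣ) : ZMod ℓ)
  /-- the Eichler–Shimura relation -/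
  es : ∀ p : ℕ, p.Prime → ¬ p ∣ N * ℓ →
    ∀ A : ValuationSubring Qb, A.LiesOverPrime p → ∀ σ : Γℚ, A.IsFrobeniusAt σ p →
      r σ * r σ - tp p • r σ + dp p • (1 : Module.End T M) = 0

attribute [instance] ESModule.instT ESModule.instΛ ESModule.modΛ ESModule.finΛ ESModule.instM
  ESModule.modM ESModule.finM

/-! ### the assembly -/

section Assembly

variable {N : ℕ} [NeZero N] {ℓ : ℕ} [Fact ℓ.Prime] {a : ℕ → ZMod ℓ}
  {e : (ZMod N)ˣ →* (ZMod ℓ)ˣ}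

/-- **B5: the residual representation from an Eichler–Shimura module.** -/
theorem exists_residual (hBLR : BLRStmt ℓ) (E : ESModule N ℓ a e) :
    ∃ ρ : Γℚ →* GL (Fin 2) (ZMod ℓ), GaloisFactorsThroughFiniteLevel ρ ∧ SemisimpleImage ρ ∧
      ∀ p : ℕ, p.Prime → ¬ p ∣ N * ℓ →
        ∀ A : ValuationSubring Qb, A.LiesOverPrime p →
          (∀ σ ∈ A.inertiaSubgroupIn ℚ, ρ σ = 1) ∧
          ∀ σ : Γℚ, A.IsFrobeniusAt σ p →
            ((ρ σ : GL (Fin 2) (ZMod ℓ)) : Matrix (Fin 2) (Fin 2) (ZMod ℓ)).trace = a p ∧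
            ∀ u : (ZMod N)ˣ, (u : ZMod N) = (p : ZMod N) →
              ((ρ σ : GL (Fin 2) (ZMod ℓ)) : Matrix (Fin 2) (Fin 2) (ZMod ℓ)).det =
                ((e u : (ZMod ℓ)ˣ) : ZMod ℓ) := by
  classical
  have hℓ : ℓ.Prime := Fact.out
  have hN : N ≠ 0 := NeZero.ne N
  have hNℓ : N * ℓ ≠ 0 := mul_ne_zero hN hℓ.ne_zero
  letI : Algebra E.T (ZMod ℓ) := E.θ.toAlgebra
  have halg : ∀ t : E.T, algebraMap E.T (ZMod ℓ) t = E.θ t := fun t => rfl
  -- `θ` is surjective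
  have hsurj : Function.Surjective (algebraMap E.T (ZMod ℓ)) := by
    intro x
    refine ⟨((x.val : ℕ) : E.T), ?_⟩
    rw [halg, map_natCast, ZMod.natCast_zmod_val]
  have hℓ0 : algebraMap E.T (ZMod ℓ) (ℓ : E.T) = 0 := by
    rw [halg, map_natCast, ZMod.natCast_self]
  -- the eigen-quotient
  haveI : Nontrivial (ZMod ℓ ⊗[E.T] E.M) :=
    Fermat.Agent.DS.G1.EigenQuot40.nontrivial_tensor_of_smul hsurj E.faithful (ℓ : E.T) hℓ0
      E.kummer
  haveI : Module.Finite (ZMod ℓ) (ZMod ℓ ⊗[E.T] E.M) := Module.Finite.base_change E.T (ZMod ℓ) E.M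
  set R : Representation (ZMod ℓ) Γℚ (ZMod ℓ ⊗[E.T] E.M) :=
    Fermat.Agent.DS.G1.EigenQuot40.baseChangeRep (ZMod ℓ) E.r with hR
  set δ : Γℚ →* (ZMod ℓ)ˣ := Fermat.Agent.DS.G1.DetChar40.detChar e with hδ
  -- a common finite level
  obtain ⟨L₁, hL₁fin, hL₁⟩ := E.level
  obtain ⟨L₂, hL₂fin, hL₂⟩ := Fermat.Agent.DS.G1.DetChar40.exists_level_detChar e
  haveI := hL₁fin
  haveI := hL₂fin
  haveI : FiniteDimensional ℚ ↥(L₁ ⊔ L₂) := IntermediateField.finiteDimensional_sup L₁ L₂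
  have hRL : ∀ g : Γℚ, (∀ x ∈ L₁ ⊔ L₂, g x = x) → R g = 1 := fun g hg =>
    Fermat.Agent.DS.G1.EigenQuot40.baseChangeRep_eq_one (ZMod ℓ) E.r
      (hL₁ g fun x hx => hg x ((le_sup_left : L₁ ≤ L₁ ⊔ L₂) hx))
  have hδL : ∀ g : Γℚ, (∀ x ∈ L₁ ⊔ L₂, g x = x) → δ g = 1 := fun g hg =>
    hL₂ g fun x hx => hg x ((le_sup_right : L₂ ≤ L₁ ⊔ L₂) hx)
  -- primes outside `(N ℓ).primeFactors`
  have hbad : ∀ p : ℕ, p.Prime → p ∉ (N * ℓ).primeFactors → ¬ p ∣ N * ℓ := fun p hp hpT hdvd =>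
    hpT (Nat.mem_primeFactors.mpr ⟨hp, hdvd, hNℓ⟩)
  -- the unit `p mod N`
  have hunit : ∀ p : ℕ, p.Prime → ¬ p ∣ N * ℓ → ∃ u : (ZMod N)ˣ, (u : ZMod N) = (p : ZMod N) := by
    intro p hp hpN
    have hcop : Nat.Coprime p N := (Nat.Prime.coprime_iff_not_dvd hp).mpr fun h =>
      hpN (dvd_mul_of_dvd_left h ℓ)
    exact ⟨ZMod.unitOfCoprime p hcop, ZMod.coe_unitOfCoprime p hcop⟩
  -- the relation at Frobenius elements
  have hfrob : ∀ p : ℕ, p.Prime → p ∉ (N * ℓ).primeFactors →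
      ∀ A : ValuationSubring Qb, A.LiesOverPrime p → ∀ φ : Γℚ, A.IsFrobeniusAt φ p →
        R φ * R φ - a p • R φ + ((δ φ : (ZMod ℓ)ˣ) : ZMod ℓ) •
          (1 : Module.End (ZMod ℓ) (ZMod ℓ ⊗[E.T] E.M)) = 0 := by
    intro p hp hpT A hA φ hφ
    have hpN := hbad p hp hpT
    obtain ⟨u, hu⟩ := hunit p hp hpN
    have hpN' : ¬ p ∣ N := fun h => hpN (dvd_mul_of_dvd_left h ℓ)
    have h1 := Fermat.Agent.DS.G1.EigenQuot40.baseChangeRep_rel (ZMod ℓ) E.r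
      (E.es p hp hpN A hA φ hφ)
    rw [halg, halg, E.θ_tp p hp hpN, E.θ_dp p hp hpN u hu] at h1
    rw [hδ, Fermat.Agent.DS.G1.DetChar40.detChar_of_isFrobeniusAt e hp hpN' A hA hφ u hu]
    exact h1
  -- the relation at every element
  have hrel : ∀ g : Γℚ, ∃ b : ZMod ℓ, ∀ v : ZMod ℓ ⊗[E.T] E.M,
      R g (R g v) - b • R g v + ((δ g : (ZMod ℓ)ˣ) : ZMod ℓ) • v = 0 := by
    intro g
    obtain ⟨b, hb⟩ := Fermat.Agent.DS.G1.FrobToAll40.rel_all_of_rel_frob R δ (L₁ ⊔ L₂) hRL hδL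
      (N * ℓ).primeFactors a hfrob g
    refine ⟨b, fun v => ?_⟩
    have := congrArg (fun f : Module.End (ZMod ℓ) (ZMod ℓ ⊗[E.T] E.M) => f v) hb
    simpa using this
  obtain ⟨ρ, hss, htr, hone⟩ := hBLR (ZMod ℓ ⊗[E.T] E.M) R δ hrel
  refine ⟨ρ, ⟨L₁ ⊔ L₂, inferInstance, fun σ hσ => hone σ (hRL σ hσ) (hδL σ hσ)⟩, hss, ?_⟩
  intro p hp hpN A hA
  have hpN' : ¬ p ∣ N := fun h => hpN (dvd_mul_of_dvd_left h ℓ)
  have hpT : p ∉ (N * ℓ).primeFactors := fun h => hpN (Nat.dvd_of_mem_primeFactors h)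
  refine ⟨fun σ hσ => ?_, fun σ hσ => ?_⟩
  · refine hone σ ?_ ?_
    · exact Fermat.Agent.DS.G1.EigenQuot40.baseChangeRep_eq_one (ZMod ℓ) E.r
        (E.unram p hp hpN A hA σ hσ)
    · exact Fermat.Agent.DS.G1.DetChar40.detChar_of_mem_inertia e hp hpN' A hA hσ
  · have h1 := hfrob p hp hpT A hA σ hσ
    have h2 : ∀ v : ZMod ℓ ⊗[E.T] E.M,
        R σ (R σ v) - a p • R σ v + ((δ σ : (ZMod ℓ)ˣ) : ZMod ℓ) • v = 0 := fun v => by
      have := congrArg (fun f : Module.End (ZMod ℓ) (ZMod ℓ ⊗[E.T] E.M) => f v) h1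
      simpa using this
    obtain ⟨ht, hd⟩ := htr σ (a p) h2
    refine ⟨ht, fun u hu => ?_⟩
    rw [hd, hδ, Fermat.Agent.DS.G1.DetChar40.detChar_of_isFrobeniusAt e hp hpN' A hA hσ u hu]

end Assembly

/-! ### the shape of `Contracts36.ResidualAttach` -/

section Contract

variable {N : ℕ} [NeZero N] {ε : DirichletCharacter ℂ N} {f : CuspForm (Gamma1 N) 1}

theorem coeffData_e_one (D : CoeffData N ε f) : D.e 1 = 1 := by
  apply NumberField.RingOfIntegers.ext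
  apply D.ι.injective
  rw [D.ι_e, map_one]
  simp

theorem coeffData_e_mul (D : CoeffData N ε f) (x y : ZMod N) : D.e (x * y) = D.e x * D.e y := by
  apply NumberField.RingOfIntegers.ext
  apply D.ι.injective
  rw [D.ι_e, map_mul]
  simp [D.ι_e]

/-- the values of the nebentypus on the units, as a monoid hom into `𝓞 K`. -/
def eHom (D : CoeffData N ε f) : (ZMod N)ˣ →* 𝓞 D.K where
  toFun u := D.e (u : ZMod N)
  map_one' := by rw [Units.val_one]; exact coeffData_e_one D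
  map_mul' u v := by rw [Units.val_mul]; exact coeffData_e_mul D _ _

/-- **the reduction `ε̄` of the nebentypus modulo `λ`**, as a character `(ZMod N)ˣ →* (ZMod ℓ)ˣ`. -/
def eBar (D : CoeffData N ε f) {ℓ : ℕ} (φ : 𝓞 D.K →+* ZMod ℓ) : (ZMod N)ˣ →* (ZMod ℓ)ˣ :=
  MonoidHom.toHomUnits ((φ : 𝓞 D.K →* ZMod ℓ).comp (eHom D))

theorem coe_eBar (D : CoeffData N ε f) {ℓ : ℕ} (φ : 𝓞 D.K →+* ZMod ℓ) (u : (ZMod N)ˣ) :
    ((eBar D φ u : (ZMod ℓ)ˣ) : ZMod ℓ) = φ (D.e (u : ZMod N)) := rfl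

/-- `Contracts36.ResidualAttach`, for the primes `ℓ` outside a finite set `S`. -/
def ResidualAttachOutside (S : Finset ℕ) (D : CoeffData N ε f) : Prop :=
  ∀ (ℓ : ℕ) [Fact ℓ.Prime], ¬ ℓ ∣ N → ℓ ∉ S → ∀ φ : 𝓞 D.K →+* ZMod ℓ,
    ∃ ρ : Γℚ →* GL (Fin 2) (ZMod ℓ), GaloisFactorsThroughFiniteLevel ρ ∧ SemisimpleImage ρ ∧
      ∀ p : ℕ, p.Prime → ¬ p ∣ N * ℓ →
        ∀ A : ValuationSubring (AlgebraicClosure ℚ), A.LiesOverPrime p →
          (∀ σ ∈ A.inertiaSubgroupIn ℚ, ρ σ = 1) ∧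
          ∀ σ : Γℚ, A.IsFrobeniusAt σ p →
            ((ρ σ : GL (Fin 2) (ZMod ℓ)) : Matrix (Fin 2) (Fin 2) (ZMod ℓ)).trace = φ (D.a p) ∧
            ((ρ σ : GL (Fin 2) (ZMod ℓ)) : Matrix (Fin 2) (Fin 2) (ZMod ℓ)).det =
              φ (D.e (p : ZMod N))

/-- the contract of `Contracts36` is the case `S = ∅`. -/
theorem residualAttach_of_outside_empty (D : CoeffData N ε f) (h : ResidualAttachOutside ∅ D) :
    ResidualAttach D := fun ℓ _ hℓN φ => h ℓ hℓN (Finset.notMem_empty ℓ) φ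

/-- **B5 exit**: Eichler–Shimura modules at all `ℓ ∉ S` (and the Boston–Lenstra–Ribet extraction)
give the residual representations. -/
theorem residualAttachOutside_of_esModules (S : Finset ℕ) (D : CoeffData N ε f)
    (h : ∀ (ℓ : ℕ) [Fact ℓ.Prime], ¬ ℓ ∣ N → ℓ ∉ S → ∀ φ : 𝓞 D.K →+* ZMod ℓ,
      BLRStmt ℓ ∧ Nonempty (ESModule N ℓ (fun p => φ (D.a p)) (eBar D φ))) :
    ResidualAttachOutside S D := by
  intro ℓ _ hℓN hℓS φ
  obtain ⟨hBLR, ⟨E⟩⟩ := h ℓ hℓN hℓS φ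
  obtain ⟨ρ, hlev, hss, hρ⟩ := exists_residual hBLR E
  refine ⟨ρ, hlev, hss, fun p hp hpN A hA => ?_⟩
  obtain ⟨hin, hfr⟩ := hρ p hp hpN A hA
  refine ⟨hin, fun σ hσ => ?_⟩
  obtain ⟨ht, hd⟩ := hfr σ hσ
  refine ⟨ht, ?_⟩
  have hcop : Nat.Coprime p N := (Nat.Prime.coprime_iff_not_dvd hp).mpr fun h' =>
    hpN (dvd_mul_of_dvd_left h' ℓ)
  have hu : ((ZMod.unitOfCoprime p hcop : (ZMod N)ˣ) : ZMod N) = (p : ZMod N) :=
    ZMod.coe_unitOfCoprime p hcop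
  rw [hd _ hu, coe_eBar, hu]

end Contract

end Fermat.Agent.DS.G1.Res.ESModule40
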