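/-
Programme G1 (S48 = Deligne–Serre), chapter B5 supply (tasks key G1-RES-OpenStabGen25) -- helper25.

**Γ-FREE twin of `ES/GAL/OpenStab12`: open stabilisers for the arithmetic Galois action on the
places, divisors and divisor classes of `ℚ̄ · F₀`, for an ARBITRARY
`F₀ : IntermediateField ℚ (LaurentSeries ℚ)`.**

The Γ₀ original is stated for `modularFunctionFieldFull N` and uses the Galois-fixed generator `j`
(`RED/TOP/FbarFacts20.isGen_j`).  Here the only hypothesis on `F₀` is the existence of SOME
transcendental generator `x` of `ℚ̄ · F₀` (`X0.FF.IsGen ℚ̄ x`, i.e. `x` transcendental and `ℚ̄ · F₀`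
finite over `ℚ̄(x)`); it need not be Galois-fixed, because `x` itself is fixed by an open subgroup.
The generic half of the original (`HasLevel`, `smul_place_eq`, ...) is imported, not copied.

* `hasLevel_elt`     : every `b ∈ ℚ̄ · F₀` is fixed by an open subgroup;
* `hasLevel_place`   : every place of `ℚ̄ · F₀` is fixed by an open subgroup;
* `hasLevel_divisor`, `hasLevel_pic0`, `hasLevel_finite`, `hasLevel_torsion`;
* `factorsThroughFiniteLevel_torsionRep` : if `Pic⁰(ℚ̄ · F₀)[n]` is finite, the Galois representation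
  on it factors through a finite level (Prelude's `GaloisFactorsThroughFiniteLevel`);
* `factorsThroughFiniteLevel_JOne` : the instance `F₀ = F1 M`, i.e. `JOne.torsionGaloisRep M n`
  (the `level` field of `DS/G1/Res/ESModule40.ESModule`);
* `exists_level_fixing_torsion` : the same in element form (a number field `L` such that every
  `σ` fixing `L` fixes every `n`-torsion point of `JOne M`).
-/
import Mathlib
import Fermat.Agent.ES.GAL.OpenStab12
import Fermat.Agent.RED.DESC.CoeffDescent1
import Fermat.Agent.DS.G1.FieldDefs62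

set_option autoImplicit false
set_option synthInstance.maxHeartbeats 400000
set_option linter.unusedSectionVars false
set_option linter.style.haveILetI false

noncomputable section

open AlgebraicCurve ModularCurve IntermediateField

namespace Fermat.Agent.DS.G1.Res.OpenStabGen25

open Fermat.Agent.X0.FF Fermat.Agent.ES.RED.SpecialFibre13 Fermat.Agent.ES.RED.PlaceValue13
open Fermat.Agent.ES.GAL.OpenStab12

/-- `ℚbar`. -/
local notation "Qb" => AlgebraicClosure ℚ

attribute [local instance] isAlgebraic_qb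

section Gen

variable (F₀ : IntermediateField ℚ (LaurentSeries ℚ))

/-- every element of `ℚ̄ · F₀` is fixed by an open subgroup. -/
theorem hasLevel_elt (b : laurentBaseChange Qb F₀) :
    HasLevel (fun σ => arithmeticGalois F₀ σ • b = b) := by
  obtain ⟨L, -, hL, b', -, hb'⟩ :=
    Fermat.Agent.RED.DESC.CoeffDescent1.exists_finite_descent (L := Qb) (F₀ := F₀) ⊥ b.2
  refine ⟨L, hL, fun σ hσ => Subtype.ext ?_⟩
  rw [coe_arithmeticGalois_smul, ← hb', coeffMap_coeffMap]
  refine coeffMap_congr (RingHom.ext fun a => ?_) b'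
  exact hσ _ a.2

/-- **every place of `ℚ̄ · F₀` is fixed by an open subgroup of `Gal(ℚ̄/ℚ)`**, as soon as `ℚ̄ · F₀`
has a transcendental generator. -/
theorem hasLevel_place (hgen : ∃ x : laurentBaseChange Qb F₀, IsGen Qb x)
    (P : Place Qb (laurentBaseChange Qb F₀)) :
    HasLevel (fun σ => arithmeticGalois F₀ σ • P = P) := by
  -- a generator in the valuation ring of `P`
  obtain ⟨x, hx, hP⟩ : ∃ x : laurentBaseChange Qb F₀, IsGen Qb x ∧ x ∈ P.toValuationSubring := by
    obtain ⟨x, hx⟩ := hgen
    rcases mem_or_inv_mem (x := x) P with h | h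
    · exact ⟨x, hx, h⟩
    · exact ⟨x⁻¹, isGen_inv hx, h⟩
  haveI := finite_intRing hx
  obtain ⟨S, hS⟩ := (Module.finite_def.1 (finite_intRing hx) :
    (⊤ : Submodule (polyRing Qb x) (intRing Qb x)).FG)
  have h0 := hasLevel_elt F₀ x
  have h1 := hasLevel_forall_finset S
    (fun b σ => arithmeticGalois F₀ σ • ((b : intRing Qb x) : laurentBaseChange Qb F₀) = b)
    (fun b _ => hasLevel_elt F₀ b)
  have h2 := hasLevel_forall_finset S
    (fun b σ => σ (chartPoint hx P hP b) = chartPoint hx P hP b)
    (fun b _ => hasLevel_const _)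
  have h3 := hasLevel_const (chartPoint hx P hP (genB Qb x))
  refine (((h0.and h1).and h2).and h3).mono ?_
  rintro σ ⟨⟨⟨hσ0, hσ1⟩, hσ2⟩, hσ3⟩
  exact smul_place_eq hx _ hσ0 P hP S hS hσ1 hσ3 hσ2

/-- every divisor of `ℚ̄ · F₀` is fixed by an open subgroup. -/
theorem hasLevel_divisor (hgen : ∃ x : laurentBaseChange Qb F₀, IsGen Qb x)
    (D : Divisor Qb (laurentBaseChange Qb F₀)) :
    HasLevel (fun σ => arithmeticGalois F₀ σ • D = D) := by
  refine (hasLevel_forall_finset D.support
    (fun P σ => arithmeticGalois F₀ σ • P = P)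
    (fun P _ => hasLevel_place F₀ hgen P)).mono fun σ hσ => ?_
  rw [SemilinearAut.divisor_smul_def]
  have := Finsupp.mapDomain_congr (v := D)
    (f := (arithmeticGalois F₀ σ • ·)) (g := id) (fun P hP => hσ P hP)
  rw [this, Finsupp.mapDomain_id]

/-- **every point of `Pic⁰(ℚ̄ · F₀)` is fixed by an open subgroup.** -/
theorem hasLevel_pic0 (hgen : ∃ x : laurentBaseChange Qb F₀, IsGen Qb x)
    (y : Pic0 Qb (laurentBaseChange Qb F₀)) : HasLevel (fun σ => σ • y = y) := by
  obtain ⟨D, rfl⟩ := Pic0.mk_surjective y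
  refine (hasLevel_divisor F₀ hgen (D : Divisor Qb (laurentBaseChange Qb F₀))).mono fun σ hσ => ?_
  rw [galois_smul_pic0_def, SemilinearAut.pic0_smul_mk]
  exact congrArg Pic0.mk (Subtype.ext hσ)

/-- a finite set of points of `Pic⁰(ℚ̄ · F₀)` is pointwise fixed by an open subgroup. -/
theorem hasLevel_finite (hgen : ∃ x : laurentBaseChange Qb F₀, IsGen Qb x)
    (T : Set (Pic0 Qb (laurentBaseChange Qb F₀))) (hT : T.Finite) :
    HasLevel (fun σ => ∀ y ∈ T, σ • y = y) := by
  refine (hasLevel_forall_finset hT.toFinset (fun y σ => σ • y = y)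
    (fun y _ => hasLevel_pic0 F₀ hgen y)).mono fun σ hσ y hy => hσ y (hT.mem_toFinset.2 hy)

/-- **if `Pic⁰(ℚ̄ · F₀)[n]` is finite, it is pointwise fixed by an open subgroup.** -/
theorem hasLevel_torsion (hgen : ∃ x : laurentBaseChange Qb F₀, IsGen Qb x) (n : ℕ)
    (hfin : {y : Pic0 Qb (laurentBaseChange Qb F₀) | n • y = 0}.Finite) :
    HasLevel (fun σ => ∀ y : Pic0 Qb (laurentBaseChange Qb F₀), n • y = 0 → σ • y = y) :=
  hasLevel_finite F₀ hgen _ hfin

/-- **the Galois representation on `Pic⁰(ℚ̄ · F₀)[n]` factors through a finite level** (Prelude's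
`GaloisFactorsThroughFiniteLevel`), as soon as `Pic⁰(ℚ̄ · F₀)[n]` is finite. -/
theorem factorsThroughFiniteLevel_torsionRep
    (hgen : ∃ x : laurentBaseChange Qb F₀, IsGen Qb x) (n : ℕ)
    [Finite (Pic0.torsion Qb (laurentBaseChange Qb F₀) n)] :
    GaloisFactorsThroughFiniteLevel
      ((SemilinearAut.torsionRep Qb (laurentBaseChange Qb F₀) n).comp (arithmeticGalois F₀)) := by
  obtain ⟨L, hL, H⟩ := hasLevel_finite F₀ hgen
    (Set.range (Subtype.val : Pic0.torsion Qb (laurentBaseChange Qb F₀) n →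
      Pic0 Qb (laurentBaseChange Qb F₀)))
    (Set.finite_range _)
  refine ⟨L, hL, fun σ hσ => LinearMap.ext fun y => Subtype.ext ?_⟩
  exact H σ hσ y ⟨y, rfl⟩

end Gen

/-! ### The instance `F₀ = F1 M` : `J₁(M)` -/

section JOne

open Fermat.Agent.DS.G1.Defs62

variable (M : ℕ)

/-- **the Galois representation on `J₁(M)[n]` factors through a finite level**, as soon as
`ℚ̄ · F1(M)` has a transcendental generator (B2: finite over `ℚ̄(j)`) and `J₁(M)[n]` is finite
(B3: Kummer system).  This is the `level` field of `ESModule40.ESModule`. -/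
theorem factorsThroughFiniteLevel_JOne (hgen : ∃ x : F1Bar M, IsGen Qb x) (n : ℕ)
    [Finite (Pic0.torsion Qb (F1Bar M) n)] :
    GaloisFactorsThroughFiniteLevel (JOne.torsionGaloisRep M n) :=
  factorsThroughFiniteLevel_torsionRep (F1 M) hgen n

/-- element form: a number field `L` such that every `σ` fixing `L` pointwise fixes every
`n`-torsion point of `J₁(M)`. -/
theorem exists_level_fixing_torsion (hgen : ∃ x : F1Bar M, IsGen Qb x) (n : ℕ)
    (hfin : {y : JOne M | n • y = 0}.Finite) :
    ∃ L : IntermediateField ℚ Qb, FiniteDimensional ℚ L ∧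
      ∀ σ : Qb ≃ₐ[ℚ] Qb, (∀ a ∈ L, σ a = a) → ∀ y : JOne M, n • y = 0 → σ • y = y :=
  hasLevel_torsion (F1 M) hgen n hfin

end JOne

end Fermat.Agent.DS.G1.Res.OpenStabGen25
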